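import Mathlib.Combinatorics.SimpleGraph.Maps
import Mathlib.Data.Fintype.Option
import Mathlib.Data.Fintype.Sigma
import Mathlib.Data.Fintype.Prod
import Mathlib.Algebra.Group.Equiv.Basic
import Mathlib.Algebra.Group.Units.Equiv
import Mathlib.Algebra.Order.Group.End
import Mathlib.Algebra.Order.Group.Nat

/-!
# A graph with a given group of automorphisms

Over each pair of a group element and a layer `l : Option G` hangs a tail whose length identifies
the layer. The layers `none` and `some s` are joined at equal elements, and `some s`, `some t` at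
equal products `g * s = h * t`; so an automorphism is the same permutation on each layer and
commutes with right multiplication.
-/

set_option autoImplicit false

noncomputable section

namespace FA.Frucht

universe u

variable {G : Type u} [Group G] [Fintype G]

/-- The length of the tail over a layer. -/
def len (l : Option G) : ℕ := (Fintype.equivFin (Option G) l : ℕ) + 1

omit [Group G] in
theorem len_injective : Function.Injective (len (G := G)) := fun _ _ h =>
  (Fintype.equivFin (Option G)).injective (Fin.ext (Nat.succ.inj h))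

variable (G) in
/-- Positions on the tails. -/
abbrev Vertex := G × Σ l : Option G, Fin (len l + 1)

omit [Group G] in
theorem vertex_ext {a b : Vertex G} (hg : a.1 = b.1) (hl : a.2.1 = b.2.1)
    (hk : (a.2.2 : ℕ) = b.2.2) : a = b := by
  obtain ⟨g, l, k⟩ := a
  obtain ⟨h, m, j⟩ := b
  obtain rfl : g = h := hg
  obtain rfl : l = m := hl
  obtain rfl : k = j := Fin.ext hk
  rfl

/-- Edges between the layers. -/
def BaseRel : G → Option G → G → Option G → Prop
  | g, none, h, some _ => g = h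
  | g, some _, h, none => g = h
  | g, some s, h, some t => g * s = h * t ∧ s ≠ t
  | _, none, _, none => False

omit [Fintype G] in
theorem baseRel_symm {g h : G} {l m : Option G} (H : BaseRel g l h m) : BaseRel h m g l := by
  rcases l with _ | s <;> rcases m with _ | t <;> simp only [BaseRel] at H ⊢
  · exact H.symm
  · exact H.symm
  · exact ⟨H.1.symm, H.2.symm⟩

omit [Fintype G] in
theorem baseRel_irrefl (g : G) (l : Option G) : ¬BaseRel g l g l := by
  rcases l with _ | s <;> simp [BaseRel]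

variable (G) in
/-- Frucht's graph. -/
def graph : SimpleGraph (Vertex G) where
  Adj a b :=
    (a.1 = b.1 ∧ a.2.1 = b.2.1 ∧ ((b.2.2 : ℕ) = a.2.2 + 1 ∨ (a.2.2 : ℕ) = b.2.2 + 1)) ∨
      ((a.2.2 : ℕ) = 0 ∧ (b.2.2 : ℕ) = 0 ∧ BaseRel a.1 a.2.1 b.1 b.2.1)
  symm := ⟨fun a b h => h.elim (fun h => Or.inl ⟨h.1.symm, h.2.1.symm, h.2.2.symm⟩)
    fun h => Or.inr ⟨h.2.1, h.1, baseRel_symm h.2.2⟩⟩
  loopless := ⟨fun a h => h.elim (fun h => by omega) fun h => baseRel_irrefl _ _ h.2.2⟩

/-- The action of the group. -/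
def leftMul (g : G) : graph G ≃g graph G where
  toEquiv := Equiv.prodCongr (Equiv.mulLeft g) (Equiv.refl _)
  map_rel_iff' := by
    rintro ⟨a, l, i⟩ ⟨b, m, j⟩
    rcases l with _ | s <;> rcases m with _ | t <;> simp [graph, BaseRel, mul_assoc]

/-- Three distinct neighbours. -/
def Branch (a : Vertex G) : Prop :=
  ∃ x y z, x ≠ y ∧ x ≠ z ∧ y ≠ z ∧ (graph G).Adj a x ∧ (graph G).Adj a y ∧ (graph G).Adj a z

theorem branch_map (φ : graph G ≃g graph G) {a : Vertex G} (h : Branch a) : Branch (φ a) := by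
  obtain ⟨x, y, z, h1, h2, h3, ha, hb, hc⟩ := h
  exact ⟨φ x, φ y, φ z, φ.injective.ne h1, φ.injective.ne h2, φ.injective.ne h3,
    φ.map_rel_iff.2 ha, φ.map_rel_iff.2 hb, φ.map_rel_iff.2 hc⟩

theorem branch_map_iff (φ : graph G ≃g graph G) {a : Vertex G} : Branch (φ a) ↔ Branch a :=
  ⟨fun h => by simpa using branch_map φ.symm h, branch_map φ⟩

/-- The start of the tail over `(g, l)`. -/
def base (g : G) (l : Option G) : Vertex G := (g, ⟨l, ⟨0, Nat.succ_pos _⟩⟩)

theorem branch_iff [Nontrivial G] (a : Vertex G) : Branch a ↔ (a.2.2 : ℕ) = 0 := by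
  constructor
  · rintro ⟨x, y, z, hxy, hxz, hyz, hx, hy, hz⟩
    by_contra h0
    have key : ∀ b, (graph G).Adj a b → a.1 = b.1 ∧ a.2.1 = b.2.1 ∧
        ((b.2.2 : ℕ) = a.2.2 + 1 ∨ (a.2.2 : ℕ) = b.2.2 + 1) := fun b hb =>
      hb.resolve_right fun h => h0 h.1
    obtain ⟨x1, x2, x3⟩ := key x hx
    obtain ⟨y1, y2, y3⟩ := key y hy
    obtain ⟨z1, z2, z3⟩ := key z hz
    have e1 : (x.2.2 : ℕ) ≠ y.2.2 := fun h =>
      hxy (vertex_ext (x1.symm.trans y1) (x2.symm.trans y2) h)
    have e2 : (x.2.2 : ℕ) ≠ z.2.2 := fun h =>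
      hxz (vertex_ext (x1.symm.trans z1) (x2.symm.trans z2) h)
    have e3 : (y.2.2 : ℕ) ≠ z.2.2 := fun h =>
      hyz (vertex_ext (y1.symm.trans z1) (y2.symm.trans z2) h)
    omega
  · intro h0
    obtain ⟨g, l, k⟩ := a
    let up : Vertex G := (g, ⟨l, ⟨1, Nat.succ_lt_succ (Nat.succ_pos _)⟩⟩)
    have hup : (graph G).Adj (g, ⟨l, k⟩) up := Or.inl ⟨rfl, rfl, Or.inl (by simp_all [up])⟩
    have hne : ∀ h m, up ≠ base h m := fun h m he =>
      absurd (congrArg (fun w : Vertex G => (w.2.2 : ℕ)) he) Nat.one_ne_zero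
    rcases l with _ | s
    · obtain ⟨s, t, hst⟩ := exists_pair_ne G
      exact ⟨up, base g (some s), base g (some t), hne _ _, hne _ _,
        fun he => hst (Option.some_injective _ (congrArg (fun w : Vertex G => w.2.1) he)),
        hup, Or.inr ⟨h0, rfl, rfl⟩, Or.inr ⟨h0, rfl, rfl⟩⟩
    · obtain ⟨t, ht⟩ := exists_ne s
      refine ⟨up, base g none, base (g * s * t⁻¹) (some t), hne _ _, hne _ _,
        fun he => Option.some_ne_none t (congrArg (fun w : Vertex G => w.2.1) he).symm,
        hup, Or.inr ⟨h0, rfl, rfl⟩, Or.inr ⟨h0, rfl, ?_⟩⟩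
      exact ⟨(inv_mul_cancel_right _ _).symm, ht.symm⟩

theorem map_tail [Nontrivial G] (φ : graph G ≃g graph G) (g : G) (l : Option G) :
    ∀ (k : ℕ) (hk : k < len l + 1), (φ (g, ⟨l, ⟨k, hk⟩⟩)).1 = (φ (base g l)).1 ∧
      (φ (g, ⟨l, ⟨k, hk⟩⟩)).2.1 = (φ (base g l)).2.1 ∧
        ((φ (g, ⟨l, ⟨k, hk⟩⟩)).2.2 : ℕ) = k := by
  intro k
  induction k using Nat.strong_induction_on with
  | _ k ih =>
    intro hk
    rcases k with _ | k
    · exact ⟨rfl, rfl, (branch_iff _).1 (branch_map φ ((branch_iff _).2 rfl))⟩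
    set b := φ (g, ⟨l, ⟨k + 1, hk⟩⟩) with hb
    have hnb : (b.2.2 : ℕ) ≠ 0 := fun h => by
      have := (branch_iff _).1 ((branch_map_iff φ).1 ((branch_iff _).2 h))
      simp at this
    obtain ⟨a1, a2, a3⟩ := ih k k.lt_succ_self (by omega)
    set a := φ (g, ⟨l, ⟨k, by omega⟩⟩) with ha
    have hadj : (graph G).Adj a b := φ.map_rel_iff.2 (Or.inl ⟨rfl, rfl, Or.inl rfl⟩)
    obtain ⟨e1, e2, e3⟩ := hadj.resolve_right fun h => hnb h.2.1
    refine ⟨e1.symm.trans a1, e2.symm.trans a2, ?_⟩
    rcases e3 with e3 | e3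
    · omega
    rcases k with _ | j
    · omega
    exfalso
    obtain ⟨c1, c2, c3⟩ := ih j (by omega) (by omega)
    have : φ (g, ⟨l, ⟨j, by omega⟩⟩) = b :=
      vertex_ext (c1.trans (e1.symm.trans a1).symm) (c2.trans (e2.symm.trans a2).symm) (by omega)
    have := congrArg (fun w : Vertex G => (w.2.2 : ℕ)) (φ.injective this)
    simp at this
    omega

theorem len_le [Nontrivial G] (φ : graph G ≃g graph G) (g : G) (l : Option G) :
    len l ≤ len (φ (base g l)).2.1 := by
  obtain ⟨-, h2, h3⟩ := map_tail φ g l (len l) (Nat.lt_succ_self _)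
  rw [← h2]
  have := (φ (g, ⟨l, ⟨len l, Nat.lt_succ_self _⟩⟩)).2.2.is_lt
  omega

theorem layer_eq [Nontrivial G] (φ : graph G ≃g graph G) (g : G) (l : Option G) :
    (φ (base g l)).2.1 = l := by
  refine len_injective (le_antisymm ?_ (len_le φ g l))
  set a := φ (base g l) with ha
  have h0 : (a.2.2 : ℕ) = 0 := (map_tail φ g l 0 (Nat.succ_pos _)).2.2
  have hab : base a.1 a.2.1 = a := vertex_ext rfl rfl h0.symm
  have h := len_le φ.symm a.1 a.2.1
  rw [hab, ha, φ.symm_apply_apply] at h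
  exact h

theorem exists_eq_leftMul [Nontrivial G] (φ : graph G ≃g graph G) : ∃ g, φ = leftMul g := by
  have hadj : ∀ {g h : G} {l m : Option G}, BaseRel g l h m →
      BaseRel (φ (base g l)).1 l (φ (base h m)).1 m := by
    intro g h l m H
    have hA : (graph G).Adj (φ (base g l)) (φ (base h m)) :=
      φ.map_rel_iff.2 (Or.inr ⟨rfl, rfl, H⟩)
    have hz := (map_tail φ g l 0 (Nat.succ_pos _)).2.2
    have hz' := (map_tail φ h m 0 (Nat.succ_pos _)).2.2
    rcases hA with ⟨-, -, h3⟩ | ⟨-, -, h3⟩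
    · unfold base at h3
      omega
    · rwa [layer_eq, layer_eq] at h3
  have hlayer : ∀ g l, (φ (base g l)).1 = (φ (base g none)).1 := by
    intro g l
    rcases l with _ | s
    · rfl
    · exact hadj (g := g) (h := g) (l := some s) (m := none) rfl
  have hmul : ∀ g, (φ (base g none)).1 = (φ (base 1 none)).1 * g := by
    intro g
    by_cases hg : g = 1
    · rw [hg, mul_one]
    · have h := hadj (g := 1) (h := g) (l := some g) (m := some 1) ⟨by simp, hg⟩
      rw [hlayer, hlayer g] at h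
      simpa using h.1.symm
  refine ⟨(φ (base 1 none)).1, DFunLike.ext _ _ fun a => ?_⟩
  obtain ⟨g, l, k, hk⟩ := a
  obtain ⟨h1, h2, h3⟩ := map_tail φ g l k hk
  refine vertex_ext ?_ (h2.trans (layer_eq φ g l)) h3
  rw [h1, hlayer, hmul]
  simp [leftMul]

variable (G) in
/-- The group as automorphisms of its graph. -/
def action : G →* (graph G ≃g graph G) where
  toFun := leftMul
  map_one' := DFunLike.ext _ _ fun a => by simp [leftMul, Prod.map_apply']
  map_mul' g h := DFunLike.ext _ _ fun a => by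
    rw [RelIso.mul_apply]
    simp [leftMul, mul_assoc, Prod.map_apply']

theorem action_bijective [Nontrivial G] : Function.Bijective (action G) := by
  refine ⟨fun g h H => ?_, fun φ => ?_⟩
  · have := congrArg (fun φ : graph G ≃g graph G => (φ (base 1 none)).1) H
    simpa [action, leftMul, base] using this
  · obtain ⟨g, rfl⟩ := exists_eq_leftMul φ
    exact ⟨g, rfl⟩

omit [Fintype G] in
theorem exists_graph [Finite G] : ∃ (V : Type u) (_ : Fintype V) (Γ : SimpleGraph V),
    Nonempty (G ≃* (Γ ≃g Γ)) := by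
  cases nonempty_fintype G
  rcases subsingleton_or_nontrivial G with hG | hG
  · refine ⟨PUnit, inferInstance, ⊥, ⟨MulEquiv.ofBijective
      (1 : G →* ((⊥ : SimpleGraph PUnit) ≃g ⊥)) ⟨fun a b _ => Subsingleton.elim a b,
        fun φ => ⟨1, DFunLike.ext _ _ fun _ => Subsingleton.elim _ _⟩⟩⟩⟩
  · exact ⟨Vertex G, inferInstance, graph G, ⟨MulEquiv.ofBijective (action G) action_bijective⟩⟩

/-- Isomorphic graphs have isomorphic groups of automorphisms. -/
def autCongr {V W : Type*} {A : SimpleGraph V} {B : SimpleGraph W} (e : A ≃g B) :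
    (A ≃g A) ≃* (B ≃g B) where
  toFun φ := (e.symm.trans φ).trans e
  invFun φ := (e.trans φ).trans e.symm
  left_inv φ := DFunLike.ext _ _ fun a => by simp
  right_inv φ := DFunLike.ext _ _ fun a => by simp
  map_mul' φ ψ := DFunLike.ext _ _ fun a => by simp [RelIso.mul_apply]

omit [Fintype G] in
/-- Frucht's theorem with vertices in `Fin n`. -/
theorem exists_graph_fin [Finite G] :
    ∃ (n : ℕ) (Γ : SimpleGraph (Fin n)), Nonempty (G ≃* (Γ ≃g Γ)) := by
  obtain ⟨V, hV, Γ, ⟨e⟩⟩ := exists_graph (G := G)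
  exact ⟨Fintype.card V, Γ.map (Fintype.equivFin V).toEmbedding,
    ⟨e.trans (autCongr (SimpleGraph.Iso.map (Fintype.equivFin V) Γ))⟩⟩

end FA.Frucht
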